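import Fermat.Agent.S14.SecondIneq.Defs

/-!
# S14 / SecondIneq / Local: counting the `p`-torsion of `(R / I)ˣ`  (leaf `Count`)

Pure algebra: if every `p`-th root of unity `y` modulo `I` satisfies `p · (y - ζ ^ i) ∈ I` for
some `i < p`, then `(R / I)ˣ` has at most `p · |ker (p : R / I → R / I)| = p · |R / (I + (p))|`
elements of order dividing `p`.
-/

set_option autoImplicit false

namespace Fermat.Agent.S14.SecondIneq.Local

/-- Step 1: the `p`-torsion of `(R / I)ˣ` injects into `Fin p × ker (p : R / I → R / I)`. -/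
theorem Count.card_le_mul_card_ker {R : Type*} [CommRing R] (I : Ideal R) [Finite (R ⧸ I)]
    (p : ℕ) (ζ : R) (h : ∀ y : R, y ^ p - 1 ∈ I → ∃ i < p, (p : R) * (y - ζ ^ i) ∈ I) :
    Nat.card {a : (R ⧸ I)ˣ // a ^ p = 1} ≤
      p * Nat.card {m : R ⧸ I // (p : R ⧸ I) * m = 0} := by
  have key : ∀ a : {a : (R ⧸ I)ˣ // a ^ p = 1}, ∃ i : Fin p,
      (p : R ⧸ I) * (((a.1 : (R ⧸ I)ˣ) : R ⧸ I) - Ideal.Quotient.mk I ζ ^ (i : ℕ)) = 0 := by
    intro a
    obtain ⟨y, hy⟩ := Ideal.Quotient.mk_surjective ((a.1 : (R ⧸ I)ˣ) : R ⧸ I)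
    have ha : (((a.1 : (R ⧸ I)ˣ) : R ⧸ I)) ^ p = 1 := by
      have h0 := congrArg Units.val a.2
      rw [Units.val_pow_eq_pow_val, Units.val_one] at h0
      exact h0
    have hyI : y ^ p - 1 ∈ I := by
      rw [← Ideal.Quotient.eq_zero_iff_mem, map_sub, map_pow, map_one, hy, ha, sub_self]
    obtain ⟨i, hi, hmem⟩ := h y hyI
    refine ⟨⟨i, hi⟩, ?_⟩
    have h0 := Ideal.Quotient.eq_zero_iff_mem.mpr hmem
    rw [map_mul, map_sub, map_pow, map_natCast, hy] at h0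
    exact h0
  choose i hi using key
  let f : {a : (R ⧸ I)ˣ // a ^ p = 1} → Fin p × {m : R ⧸ I // (p : R ⧸ I) * m = 0} :=
    fun a => (i a, ⟨((a.1 : (R ⧸ I)ˣ) : R ⧸ I) - Ideal.Quotient.mk I ζ ^ ((i a : Fin p) : ℕ), hi a⟩)
  have hf : Function.Injective f := by
    intro a b hab
    have h1 : i a = i b := congrArg Prod.fst hab
    have h2 : ((a.1 : (R ⧸ I)ˣ) : R ⧸ I) - Ideal.Quotient.mk I ζ ^ ((i a : Fin p) : ℕ) =
        ((b.1 : (R ⧸ I)ˣ) : R ⧸ I) - Ideal.Quotient.mk I ζ ^ ((i b : Fin p) : ℕ) :=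
      congrArg (fun x => ((x.2 : {m : R ⧸ I // (p : R ⧸ I) * m = 0}) : R ⧸ I)) hab
    rw [h1] at h2
    have h3 : ((a.1 : (R ⧸ I)ˣ) : R ⧸ I) = ((b.1 : (R ⧸ I)ˣ) : R ⧸ I) := sub_left_injective h2
    exact Subtype.ext (Units.ext h3)
  have hcard := Nat.card_le_card_of_injective f hf
  rwa [Nat.card_prod, Nat.card_fin] at hcard

/-- Step 2: the kernel of multiplication by `p` on `R / I` has as many elements as
`R / (I + (p))` (for `R / I` finite). -/
theorem Count.card_ker_eq {R : Type*} [CommRing R] (I : Ideal R) [Finite (R ⧸ I)] (p : ℕ) :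
    Nat.card {m : R ⧸ I // (p : R ⧸ I) * m = 0} =
      Nat.card (R ⧸ (I ⊔ Ideal.span {(p : R)})) := by
  obtain ⟨J, hJ⟩ : ∃ J : Ideal R, J = I ⊔ Ideal.span {(p : R)} := ⟨_, rfl⟩
  rw [← hJ]
  have hIJ : I ≤ J := hJ ▸ le_sup_left
  have hpJ : (p : R) ∈ J := hJ ▸ Ideal.mem_sup_right (Ideal.mem_span_singleton_self _)
  let g : (R ⧸ I) →+ (R ⧸ I) := AddMonoidHom.mulLeft (p : R ⧸ I)
  let q : (R ⧸ I) →+ (R ⧸ J) := (Ideal.Quotient.factor hIJ : (R ⧸ I) →+* (R ⧸ J))
  have hg : ∀ m : R ⧸ I, g m = (p : R ⧸ I) * m := fun m => rfl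
  have hq : ∀ y : R, q (Ideal.Quotient.mk I y) = Ideal.Quotient.mk J y := fun y =>
    Ideal.Quotient.factor_mk hIJ y
  have hq_surj : Function.Surjective q := Ideal.Quotient.factor_surjective hIJ
  have hK : Nat.card {m : R ⧸ I // (p : R ⧸ I) * m = 0} = Nat.card g.ker :=
    Nat.card_congr (Equiv.subtypeEquivRight fun m => by
      rw [AddMonoidHom.mem_ker, hg])
  have h1 : Nat.card (R ⧸ I) = Nat.card g.range * Nat.card g.ker := by
    rw [AddSubgroup.card_eq_card_quotient_mul_card_addSubgroup g.ker,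
      Nat.card_congr (QuotientAddGroup.quotientKerEquivRange g).toEquiv]
  have h2 : Nat.card (R ⧸ I) = Nat.card (R ⧸ J) * Nat.card q.ker := by
    rw [AddSubgroup.card_eq_card_quotient_mul_card_addSubgroup q.ker,
      Nat.card_congr (QuotientAddGroup.quotientKerEquivOfSurjective q hq_surj).toEquiv]
  have h3 : q.ker = g.range := by
    ext m
    obtain ⟨y, rfl⟩ := Ideal.Quotient.mk_surjective m
    rw [AddMonoidHom.mem_ker, AddMonoidHom.mem_range, hq]
    constructor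
    · intro hm
      rw [Ideal.Quotient.eq_zero_iff_mem, hJ, Submodule.mem_sup] at hm
      obtain ⟨j, hj, s, hs, rfl⟩ := hm
      obtain ⟨r, rfl⟩ := Ideal.mem_span_singleton'.mp hs
      refine ⟨Ideal.Quotient.mk I r, ?_⟩
      rw [hg, map_add, Ideal.Quotient.eq_zero_iff_mem.mpr hj, zero_add, map_mul, map_natCast,
        mul_comm]
    · rintro ⟨m', hm'⟩
      obtain ⟨r, rfl⟩ := Ideal.Quotient.mk_surjective m'
      have hy : Ideal.Quotient.mk I y = Ideal.Quotient.mk I ((p : R) * r) := by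
        rw [← hm', hg, map_mul, map_natCast]
      have hy' : Ideal.Quotient.mk J y = Ideal.Quotient.mk J ((p : R) * r) := by
        rw [← hq, ← hq, hy]
      rw [hy', Ideal.Quotient.eq_zero_iff_mem]
      exact J.mul_mem_right r hpJ
  rw [h3] at h2
  have hpos : 0 < Nat.card g.range := Nat.card_pos
  have h4 : Nat.card g.range * Nat.card g.ker = Nat.card g.range * Nat.card (R ⧸ J) := by
    rw [← h1, h2, mul_comm]
  rw [hK]
  exact Nat.eq_of_mul_eq_mul_left hpos h4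

/-- Counting the `p`-torsion of `(R / I)ˣ` (for `R / I` finite). -/
theorem card_pTorsion_units_le {R : Type*} [CommRing R] (I : Ideal R) [Finite (R ⧸ I)] (p : ℕ)
    (ζ : R) (h : ∀ y : R, y ^ p - 1 ∈ I → ∃ i < p, (p : R) * (y - ζ ^ i) ∈ I) :
    Nat.card {a : (R ⧸ I)ˣ // a ^ p = 1} ≤
      p * Nat.card (R ⧸ (I ⊔ Ideal.span {(p : R)})) := by
  have h1 := Count.card_le_mul_card_ker I p ζ h
  rw [Count.card_ker_eq I p] at h1
  exact h1

end Fermat.Agent.S14.SecondIneq.Local
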