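import Fermat.Agent.S14.SecondIneq.Defs

/-!
# S14 / SecondIneq / Local: a counting lemma for relative indices  (leaf `Group`)

If every element of `K` is congruent modulo `H` to some `φ a` (`a` in a finite commutative
group `A`), and `φ (a * w ^ p) ≡ φ a` modulo `H`, then `[K : H ⊓ K] ≤ |A / A ^ p| = |A[p]|`.
-/

set_option autoImplicit false

namespace Fermat.Agent.S14.SecondIneq.Local

/-- In a finite commutative group, the cokernel and the kernel of `x ↦ x ^ p` have the same
number of elements. -/
theorem Group.aux_card_quot_range {A : Type*} [CommGroup A] [Finite A] (p : ℕ) :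
    Nat.card (A ⧸ (powMonoidHom p : A →* A).range) = Nat.card {a : A // a ^ p = 1} := by
  set f : A →* A := powMonoidHom p with hf
  have h1 : Nat.card A = Nat.card (A ⧸ f.ker) * Nat.card f.ker :=
    Subgroup.card_eq_card_quotient_mul_card_subgroup f.ker
  have h2 : Nat.card A = Nat.card (A ⧸ f.range) * Nat.card f.range :=
    Subgroup.card_eq_card_quotient_mul_card_subgroup f.range
  have h3 : Nat.card (A ⧸ f.ker) = Nat.card f.range :=
    Nat.card_congr (QuotientGroup.quotientKerEquivRange f).toEquiv
  have h4 : 0 < Nat.card f.range := Nat.card_pos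
  have h5 : Nat.card f.ker = Nat.card {a : A // a ^ p = 1} :=
    Nat.card_congr (Equiv.subtypeEquivRight fun a => by
      rw [MonoidHom.mem_ker, hf, powMonoidHom_apply])
  rw [← h5]
  rw [h3, h2, mul_comm] at h1
  exact Nat.eq_of_mul_eq_mul_left h4 h1

/-- An identity in commutative groups. -/
theorem Group.aux_identity {G : Type*} [CommGroup G] (x₁ x₂ p₁ p₂ : G) :
    x₁⁻¹ * x₂ = (x₁ / p₁)⁻¹ * ((x₂ / p₂) * (p₂ / p₁)) := by
  rw [div_mul_div_cancel, inv_div, div_mul_div_comm, mul_comm p₁ x₂, mul_div_mul_right_eq_div,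
    div_eq_inv_mul]

/-- Counting lemma: a family `φ : A → G` indexed by a finite commutative group `A`, meeting every
class of `K` modulo `H` and constant modulo `H` on the classes of `A` modulo `p`-th powers, bounds
the relative index by the number of `p`-torsion elements of `A`. -/
theorem relIndex_le_card_torsion {G : Type*} [CommGroup G] (H K : Subgroup G) {A : Type*}
    [CommGroup A] [Finite A] (p : ℕ) (φ : A → G)
    (hsurj : ∀ x ∈ K, ∃ a : A, x / φ a ∈ H)
    (hpow : ∀ a w : A, φ (a * w ^ p) / φ a ∈ H) :
    H.relIndex K ≠ 0 ∧ H.relIndex K ≤ Nat.card {a : A // a ^ p = 1} := by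
  classical
  set f : A →* A := powMonoidHom p with hf
  -- a choice of `a` for every element of `K`
  have hch : ∀ x : K, ∃ a : A, (x : G) / φ a ∈ H := fun x => hsurj x x.2
  choose α hα using hch
  -- the map on cosets
  let g : K ⧸ H.subgroupOf K → A ⧸ f.range := fun c => QuotientGroup.mk (α (Quotient.out c))
  have hg : Function.Injective g := by
    intro c₁ c₂ h
    have h' : (QuotientGroup.mk (α (Quotient.out c₁)) : A ⧸ f.range) =
        QuotientGroup.mk (α (Quotient.out c₂)) := h
    rw [QuotientGroup.eq] at h'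
    obtain ⟨w, hw⟩ := h'
    have hw' : α (Quotient.out c₂) = α (Quotient.out c₁) * w ^ p := by
      rw [hf, powMonoidHom_apply] at hw
      rw [hw, mul_inv_cancel_left]
    have k1 := hα (Quotient.out c₁)
    have k2 := hα (Quotient.out c₂)
    have k3 := hpow (α (Quotient.out c₁)) w
    rw [← hw'] at k3
    have key : ((Quotient.out c₁ : K) : G)⁻¹ * ((Quotient.out c₂ : K) : G) ∈ H := by
      rw [Group.aux_identity _ _ (φ (α (Quotient.out c₁))) (φ (α (Quotient.out c₂)))]
      exact H.mul_mem (H.inv_mem k1) (H.mul_mem k2 k3)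
    have hq : (QuotientGroup.mk (Quotient.out c₁) : K ⧸ H.subgroupOf K) =
        QuotientGroup.mk (Quotient.out c₂) := by
      rw [QuotientGroup.eq, Subgroup.mem_subgroupOf]
      exact key
    rw [QuotientGroup.out_eq', QuotientGroup.out_eq'] at hq
    exact hq
  have hfin : Finite (K ⧸ H.subgroupOf K) := Finite.of_injective g hg
  have hidx : H.relIndex K = Nat.card (K ⧸ H.subgroupOf K) := rfl
  rw [hidx]
  refine ⟨Nat.card_pos.ne', ?_⟩
  rw [← Group.aux_card_quot_range p]
  exact Nat.card_le_card_of_injective g hg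

end Fermat.Agent.S14.SecondIneq.Local
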