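import Fermat.Agent.S14.SecondIneq.Defs

/-!
# S14 / SecondIneq / Local: lifting units of `𝓞 / v ^ n` to `Fˣ`  (leaf `Lift`)
-/

set_option autoImplicit false

namespace Fermat.Agent.S14.SecondIneq.Local

open NumberField IsDedekindDomain

/-- (A) An integer prime to `v` is a unit modulo `v ^ n`. -/
theorem Lift.aux_isUnit_mk {F : Type*} [Field F] [NumberField F]
    (v : HeightOneSpectrum (𝓞 F)) (n : ℕ) {u : 𝓞 F} (hu : u ∉ v.asIdeal) :
    IsUnit (Ideal.Quotient.mk (v.asIdeal ^ n) u) := by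
  obtain ⟨y, i, hi, hyi⟩ := Ideal.IsMaximal.exists_inv v.isMaximal hu
  have hnil : IsNilpotent (Ideal.Quotient.mk (v.asIdeal ^ n) i) := by
    refine ⟨n, ?_⟩
    rw [← map_pow, Ideal.Quotient.eq_zero_iff_mem]
    exact Ideal.pow_mem_pow hi n
  have h1 : IsUnit (1 - Ideal.Quotient.mk (v.asIdeal ^ n) i) := hnil.isUnit_one_sub
  have h2 : (1 : 𝓞 F ⧸ v.asIdeal ^ n) - Ideal.Quotient.mk (v.asIdeal ^ n) i =
      Ideal.Quotient.mk (v.asIdeal ^ n) y * Ideal.Quotient.mk (v.asIdeal ^ n) u := by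
    rw [← map_mul, ← map_one (Ideal.Quotient.mk (v.asIdeal ^ n)), ← map_sub, ← hyi]
    congr 1
    ring
  rw [h2] at h1
  exact isUnit_of_mul_isUnit_right h1

/-- (B) An integer which is a unit modulo `v ^ n` (`n ≠ 0`) is prime to `v`. -/
theorem Lift.aux_not_mem_of_isUnit {F : Type*} [Field F] [NumberField F]
    (v : HeightOneSpectrum (𝓞 F)) (n : ℕ) (hn : n ≠ 0) {u : 𝓞 F}
    (hu : IsUnit (Ideal.Quotient.mk (v.asIdeal ^ n) u)) : u ∉ v.asIdeal := by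
  intro hmem
  have h0 : (Ideal.Quotient.mk (v.asIdeal ^ n) u) ^ n = 0 := by
    rw [← map_pow, Ideal.Quotient.eq_zero_iff_mem]
    exact Ideal.pow_mem_pow hmem n
  have h1 : IsUnit ((Ideal.Quotient.mk (v.asIdeal ^ n) u) ^ n) := hu.pow n
  rw [h0, isUnit_zero_iff] at h1
  have h2 : (1 : 𝓞 F) ∈ v.asIdeal ^ n := by
    rw [← Ideal.Quotient.eq_zero_iff_mem, map_one]
    exact h1.symm
  exact v.isPrime.ne_top ((Ideal.eq_top_iff_one _).2 (Ideal.pow_le_self hn h2))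

/-- (D) The key lemma: if `u ≡ u' * c ^ p` modulo `v ^ n` (all prime to `v`) then
`u / u' ∈ Lp p F v n`. -/
theorem Lift.aux_div_mem {p : ℕ} [Fact p.Prime] {F : Type*} [Field F] [NumberField F]
    (v : HeightOneSpectrum (𝓞 F)) (n : ℕ) (U U' : Fˣ) (u u' c : 𝓞 F)
    (hU : (U : F) = (u : F)) (hU' : (U' : F) = (u' : F)) (hu : u ∉ v.asIdeal)
    (hu' : u' ∉ v.asIdeal) (h : u - u' * c ^ p ∈ v.asIdeal ^ n) : U / U' ∈ Lp p F v n := by
  obtain ⟨k, hk⟩ : ∃ k, p = k + 1 :=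
    ⟨p - 1, (Nat.sub_add_cancel (Fact.out : p.Prime).pos).symm⟩
  refine ⟨U', u * u' ^ k, ⟨?_, c * u', ?_⟩, ?_⟩
  · intro hmem
    rcases v.isPrime.mem_or_mem hmem with h1 | h1
    · exact hu h1
    · exact hu' (v.isPrime.mem_of_pow_mem k h1)
  · have e : u * u' ^ k - (c * u') ^ p = u' ^ k * (u - u' * c ^ p) := by
      rw [hk]
      ring
    rw [e]
    exact Ideal.mul_mem_left _ _ h
  · have e : U / U' * U' ^ p = U * U' ^ k := by
      rw [hk, pow_succ', ← mul_assoc, div_mul_cancel]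
    rw [e, Units.val_mul, Units.val_pow_eq_pow_val, hU, hU']
    simp only [RingOfIntegers.coe_eq_algebraMap, map_mul, map_pow]

/-- A choice of lifts `φ : (𝓞 / v ^ n)ˣ → Fˣ` (each `φ a` is an integer prime to `v` lifting `a`)
such that every `x = u / t ^ p` (`u` an integer prime to `v`) is congruent to some `φ a` modulo
`Lp p F v n`, and `φ (a * w ^ p) ≡ φ a` modulo `Lp p F v n`. -/
theorem exists_lift {p : ℕ} [Fact p.Prime] (F : Type*) [Field F] [NumberField F]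
    (v : HeightOneSpectrum (𝓞 F)) (n : ℕ) (hn : n ≠ 0) :
    ∃ φ : (𝓞 F ⧸ v.asIdeal ^ n)ˣ → Fˣ,
      (∀ (x t : Fˣ) (u : 𝓞 F), u ∉ v.asIdeal → ((x * t ^ p : Fˣ) : F) = (u : F) →
        ∃ a, x / φ a ∈ Lp p F v n) ∧
      (∀ a w, φ (a * w ^ p) / φ a ∈ Lp p F v n) := by
  classical
  -- (C) the lifts
  have hsurj : ∀ a : (𝓞 F ⧸ v.asIdeal ^ n)ˣ, ∃ r : 𝓞 F,
      Ideal.Quotient.mk (v.asIdeal ^ n) r = (a : 𝓞 F ⧸ v.asIdeal ^ n) := fun a =>
    Ideal.Quotient.mk_surjective _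
  choose r hr using hsurj
  have hrP : ∀ a, r a ∉ v.asIdeal := fun a =>
    Lift.aux_not_mem_of_isUnit v n hn (by rw [hr a]; exact a.isUnit)
  have hr0 : ∀ a, ((r a : 𝓞 F) : F) ≠ 0 := fun a => by
    rw [RingOfIntegers.coe_eq_algebraMap, RingOfIntegers.coe_ne_zero_iff]
    intro h0
    exact hrP a (h0 ▸ Ideal.zero_mem _)
  refine ⟨fun a => Units.mk0 ((r a : 𝓞 F) : F) (hr0 a), ?_, ?_⟩
  · -- (F)
    intro x t u hu hxt
    refine ⟨(Lift.aux_isUnit_mk v n hu).unit, ?_⟩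
    have hmem : u - r (Lift.aux_isUnit_mk v n hu).unit * 1 ^ p ∈ v.asIdeal ^ n := by
      rw [one_pow, mul_one, ← Ideal.Quotient.eq, hr]
      rfl
    have h1 : (x * t ^ p) / Units.mk0 ((r (Lift.aux_isUnit_mk v n hu).unit : 𝓞 F) : F) (hr0 _) ∈
        Lp p F v n :=
      Lift.aux_div_mem v n (x * t ^ p) _ u (r (Lift.aux_isUnit_mk v n hu).unit) 1 hxt rfl hu
        (hrP _) hmem
    have h2 : (t ^ p)⁻¹ ∈ Lp p F v n := by
      refine ⟨t, 1, one_mem_GoodInt p F v n, ?_⟩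
      rw [inv_mul_cancel]
      simp
    have e : x / Units.mk0 ((r (Lift.aux_isUnit_mk v n hu).unit : 𝓞 F) : F) (hr0 _) =
        (x * t ^ p) / Units.mk0 ((r (Lift.aux_isUnit_mk v n hu).unit : 𝓞 F) : F) (hr0 _) *
          (t ^ p)⁻¹ := by
      rw [div_mul_eq_mul_div, mul_inv_cancel_right]
    rw [e]
    exact Subgroup.mul_mem _ h1 h2
  · -- (E)
    intro a w
    refine Lift.aux_div_mem v n _ _ (r (a * w ^ p)) (r a) (r w) rfl rfl (hrP _) (hrP _) ?_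
    rw [← Ideal.Quotient.eq_zero_iff_mem, map_sub, map_mul, map_pow, hr, hr, hr,
      Units.val_mul, Units.val_pow_eq_pow_val, sub_self]

end Fermat.Agent.S14.SecondIneq.Local
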