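import Fermat.Agent.S14.SecondIneq.Defs

/-!
# S14 / SecondIneq / Local: `∏_{v ∈ S} |𝓞 / (v ^ n + (p))| ≤ p ^ (2 r)`  (leaf `Prod`)
-/

set_option autoImplicit false

namespace Fermat.Agent.S14.SecondIneq.Local

open NumberField IsDedekindDomain

/-- `[F : ℚ] ≤ 2 · #(infinite places)`. -/
theorem Prod.aux_finrank_le (F : Type*) [Field F] [NumberField F] :
    Module.finrank ℚ F ≤ 2 * Fintype.card (InfinitePlace F) := by
  have h1 := InfinitePlace.card_add_two_mul_card_eq_rank F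
  have h2 := InfinitePlace.card_eq_nrRealPlaces_add_nrComplexPlaces F
  omega

/-- `∏_{v ∈ S} |𝓞 / (v ^ n + (p))| ≤ |𝓞 / (p)| = p ^ [F : ℚ] ≤ p ^ (2 r)`. -/
theorem prod_card_le {p : ℕ} [Fact p.Prime] (F : Type*) [Field F] [NumberField F]
    (S : Finset (HeightOneSpectrum (𝓞 F))) (n : ℕ) :
    ∏ v ∈ S, Nat.card (𝓞 F ⧸ (v.asIdeal ^ n ⊔ Ideal.span {((p : ℕ) : 𝓞 F)})) ≤
      p ^ (2 * Fintype.card (InfinitePlace F)) := by
  have hp : p.Prime := Fact.out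
  -- the ideals `I v = v ^ n + (p)`
  set I : HeightOneSpectrum (𝓞 F) → Ideal (𝓞 F) :=
    fun v => v.asIdeal ^ n ⊔ Ideal.span {((p : ℕ) : 𝓞 F)} with hI
  have hcard : ∀ v, Nat.card (𝓞 F ⧸ I v) = Ideal.absNorm (I v) := fun v => rfl
  have hprod : ∏ v ∈ S, Nat.card (𝓞 F ⧸ I v) = Ideal.absNorm (∏ v ∈ S, I v) := by
    rw [map_prod]
    exact Finset.prod_congr rfl fun v _ => hcard v
  -- pairwise coprime
  have hcop : (S : Set (HeightOneSpectrum (𝓞 F))).Pairwise (Function.onFun IsCoprime I) := by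
    intro v _ w _ hvw
    have h1 : IsCoprime (v.asIdeal ^ n) (w.asIdeal ^ n) :=
      HeightOneSpectrum.isCoprime_pow_of_ne v w hvw n n
    show IsCoprime (I v) (I w)
    rw [Ideal.isCoprime_iff_sup_eq]
    rw [Ideal.isCoprime_iff_sup_eq] at h1
    exact top_le_iff.mp (h1 ▸ sup_le_sup le_sup_left le_sup_left)
  have hdvd : ∏ v ∈ S, I v ∣ Ideal.span {((p : ℕ) : 𝓞 F)} :=
    Finset.prod_dvd_of_coprime hcop fun v _ => Ideal.dvd_iff_le.mpr le_sup_right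
  have hnorm : Ideal.absNorm (Ideal.span {((p : ℕ) : 𝓞 F)}) = p ^ Module.finrank ℚ F := by
    rw [Ideal.absNorm_span_natCast, RingOfIntegers.rank]
  have hle : Ideal.absNorm (∏ v ∈ S, I v) ≤ p ^ Module.finrank ℚ F := by
    rw [← hnorm]
    refine Nat.le_of_dvd ?_ (map_dvd Ideal.absNorm hdvd)
    rw [hnorm]
    exact pow_pos hp.pos _
  calc ∏ v ∈ S, Nat.card (𝓞 F ⧸ I v) = Ideal.absNorm (∏ v ∈ S, I v) := hprod
    _ ≤ p ^ Module.finrank ℚ F := hle
    _ ≤ p ^ (2 * Fintype.card (InfinitePlace F)) :=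
      Nat.pow_le_pow_right hp.pos (Prod.aux_finrank_le F)

end Fermat.Agent.S14.SecondIneq.Local
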