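import Fermat.Agent.S14.SecondIneq.Defs

/-!
# S14 / SecondIneq / Local: `p`-th roots of unity modulo `v ^ n`  (leaf `Torsion`)

If `y ^ p ≡ 1 mod v ^ n` and `n > p · v(1 - ζ)`, then `p · (y - ζ ^ i) ≡ 0 mod v ^ n` for some
`i < p` (indeed `y ≡ ζ ^ i mod v ^ (n - v(p))`).
-/

set_option autoImplicit false

namespace Fermat.Agent.S14.SecondIneq.Local

open NumberField IsDedekindDomain

/-- Divisibility decreases the valuation. -/
theorem Torsion.aux_val_le_of_dvd {F : Type*} [Field F] [NumberField F]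
    (v : HeightOneSpectrum (𝓞 F)) {x z : 𝓞 F} (h : x ∣ z) :
    v.intValuation z ≤ v.intValuation x := by
  obtain ⟨c, rfl⟩ := h
  rw [map_mul]
  exact mul_le_of_le_one_right' (v.intValuation_le_one c)

/-- Associated elements have the same valuation. -/
theorem Torsion.aux_val_eq_of_associated {F : Type*} [Field F] [NumberField F]
    (v : HeightOneSpectrum (𝓞 F)) {x z : 𝓞 F} (h : Associated x z) :
    v.intValuation x = v.intValuation z :=
  le_antisymm (Torsion.aux_val_le_of_dvd v h.symm.dvd) (Torsion.aux_val_le_of_dvd v h.dvd)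

/-- `v(p) ≤ v(ζ - 1) ^ (p - 1)`. -/
theorem Torsion.aux_val_p_le {p : ℕ} [Fact p.Prime] {F : Type*} [Field F] [NumberField F]
    (ζ : 𝓞 F) (hζ : IsPrimitiveRoot ζ p) (v : HeightOneSpectrum (𝓞 F)) :
    v.intValuation ((p : ℕ) : 𝓞 F) ≤ v.intValuation (ζ - 1) ^ (p - 1) := by
  have hp : p.Prime := Fact.out
  obtain ⟨k, rfl⟩ : ∃ k, p = k + 1 := ⟨p - 1, (Nat.sub_add_cancel hp.pos).symm⟩
  have h := hζ.prod_one_sub_pow_eq_order
  have h' : ((k + 1 : ℕ) : 𝓞 F) = ∏ j ∈ Finset.range k, (1 - ζ ^ (j + 1)) := by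
    rw [h]; push_cast; ring
  rw [h', map_prod, Nat.add_sub_cancel]
  have hle : ∀ j ∈ Finset.range k, v.intValuation (1 - ζ ^ (j + 1)) ≤ v.intValuation (ζ - 1) := by
    intro j _
    rw [← Valuation.map_sub_swap]
    exact Torsion.aux_val_le_of_dvd v (by simpa using sub_dvd_pow_sub_pow ζ 1 (j + 1))
  have := Finset.prod_le_pow_card (Finset.range k) (fun j => v.intValuation (1 - ζ ^ (j + 1)))
    (v.intValuation (ζ - 1)) hle
  rwa [Finset.card_range] at this

/-- The valuation argument: a `p`-th root of unity modulo `v ^ n` is congruent to a power of `ζ`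
modulo the colon ideal `(v ^ n : p)`, provided `(1 - ζ) ^ p ∉ v ^ n`. -/
theorem exists_mul_sub_mem {p : ℕ} [Fact p.Prime] (F : Type*) [Field F] [NumberField F]
    (ζ : 𝓞 F) (hζ : IsPrimitiveRoot ζ p) (v : HeightOneSpectrum (𝓞 F)) (n : ℕ)
    (hn : (1 - ζ) ^ p ∉ v.asIdeal ^ n) (y : 𝓞 F) (hy : y ^ p - 1 ∈ v.asIdeal ^ n) :
    ∃ i < p, ((p : ℕ) : 𝓞 F) * (y - ζ ^ i) ∈ v.asIdeal ^ n := by
  classical
  have hp : p.Prime := Fact.out
  have : NeZero p := ⟨hp.ne_zero⟩
  set T := Polynomial.nthRootsFinset p (1 : 𝓞 F) with hT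
  set a := v.intValuation (ζ - 1) with ha
  have hcardT : T.card = p := hζ.card_nthRootsFinset
  -- (1) the factorisation of `y ^ p - 1`
  have hprod : y ^ p - 1 = ∏ η ∈ T, (y - η) := by
    have h := hζ.pow_sub_pow_eq_prod_sub_mul y 1 hp.pos
    simpa using h
  have h1 : ∏ η ∈ T, v.intValuation (y - η) ≤ WithZero.exp (-(n : ℤ)) := by
    rw [← map_prod, ← hprod]
    exact (v.intValuation_le_pow_iff_mem _ n).mpr hy
  -- (2) the hypothesis on `n`
  have h2 : WithZero.exp (-(n : ℤ)) < a ^ p := by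
    have hsw : a = v.intValuation (1 - ζ) := by rw [ha, Valuation.map_sub_swap]
    rw [hsw, ← map_pow]
    by_contra hcon
    exact hn ((v.intValuation_le_pow_iff_mem _ n).mp (not_lt.mp hcon))
  -- (3) one factor is small
  obtain ⟨η₀, hη₀T, hη₀⟩ : ∃ η₀ ∈ T, v.intValuation (y - η₀) < a := by
    by_contra hcon
    simp only [not_exists, not_and, not_lt] at hcon
    have h3 : a ^ T.card ≤ ∏ η ∈ T, v.intValuation (y - η) :=
      Finset.pow_card_le_prod T _ a hcon
    rw [hcardT] at h3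
    exact absurd (h3.trans h1) (not_le.mpr h2)
  -- (4) the other factors are large
  have h4 : ∀ η ∈ T, η ≠ η₀ → a ≤ v.intValuation (y - η) := by
    intro η hη hne
    have hassoc : Associated (ζ - 1) (η₀ - η) :=
      hζ.nthRootsFinset_pairwise_associated_sub_one_sub_of_prime hp hη₀T hη hne.symm
    have hval : v.intValuation (η₀ - η) = a := (Torsion.aux_val_eq_of_associated v hassoc).symm
    have hsub : η₀ - η = (y - η) - (y - η₀) := by ring
    have hmax : v.intValuation (η₀ - η) ≤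
        max (v.intValuation (y - η)) (v.intValuation (y - η₀)) := by
      rw [hsub]; exact Valuation.map_sub _ _ _
    rw [hval] at hmax
    rcases le_max_iff.mp hmax with h | h
    · exact h
    · exact absurd h (not_le.mpr hη₀)
  -- (5) the valuation of `p`
  have h5 : v.intValuation ((p : ℕ) : 𝓞 F) ≤ a ^ (p - 1) := Torsion.aux_val_p_le ζ hζ v
  -- (6) conclusion
  have h6 : v.intValuation (((p : ℕ) : 𝓞 F) * (y - η₀)) ≤ WithZero.exp (-(n : ℤ)) := by
    rw [map_mul]
    have h7 : a ^ (p - 1) ≤ ∏ η ∈ T.erase η₀, v.intValuation (y - η) := by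
      have h8 := Finset.pow_card_le_prod (T.erase η₀) (fun η => v.intValuation (y - η)) a
        (fun η hη => h4 η (Finset.mem_of_mem_erase hη) (Finset.ne_of_mem_erase hη))
      rwa [Finset.card_erase_of_mem hη₀T, hcardT] at h8
    calc v.intValuation ((p : ℕ) : 𝓞 F) * v.intValuation (y - η₀)
        ≤ (∏ η ∈ T.erase η₀, v.intValuation (y - η)) * v.intValuation (y - η₀) :=
          mul_le_mul' (h5.trans h7) le_rfl
      _ = ∏ η ∈ T, v.intValuation (y - η) :=
          Finset.prod_erase_mul T (fun η => v.intValuation (y - η)) hη₀T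
      _ ≤ WithZero.exp (-(n : ℤ)) := h1
  have hη₀p : η₀ ^ p = 1 := (Polynomial.mem_nthRootsFinset hp.pos 1).mp hη₀T
  obtain ⟨i, hi, rfl⟩ := hζ.eq_pow_of_pow_eq_one hη₀p
  exact ⟨i, hi, (v.intValuation_le_pow_iff_mem _ n).mp h6⟩

end Fermat.Agent.S14.SecondIneq.Local
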