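import Fermat.Agent.S14.SecondIneq.Defs

/-!
# S14 / SecondIneq / Local: elements of `Bp` are `v`-unit integers up to `p`-th powers
(leaf `Unif`)
-/

set_option autoImplicit false

namespace Fermat.Agent.S14.SecondIneq.Local

open NumberField IsDedekindDomain

/-- In `Multiplicative ℤ`: `m * (ofAdd (-1)) ^ (toAdd m) = 1`. -/
theorem Unif.mul_ofAdd_zpow (m : Multiplicative ℤ) :
    m * (Multiplicative.ofAdd (-1 : ℤ)) ^ (Multiplicative.toAdd m) = 1 := by
  apply Multiplicative.toAdd.injective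
  rw [toAdd_mul, Int.toAdd_zpow, toAdd_ofAdd, toAdd_one]
  ring

/-- If the valuation of `x` at `v` is divisible by `p`, then `x * t ^ p` is an integer prime to
`v` for a suitable `t : Fˣ`. -/
theorem exists_mul_pow_eq_int {p : ℕ} [Fact p.Prime] (F : Type*) [Field F] [NumberField F]
    (v : HeightOneSpectrum (𝓞 F)) (x : Fˣ) (hx : x ∈ Bp p F v) :
    ∃ (t : Fˣ) (u : 𝓞 F), u ∉ v.asIdeal ∧ ((x * t ^ p : Fˣ) : F) = (u : F) := by
  have hp0 : 0 < p := (Fact.out : p.Prime).pos
  -- the valuation of `x` is a `p`-th power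
  obtain ⟨m, hm⟩ : ∃ m : Multiplicative ℤ, m ^ p = v.valuationOfNeZero x := by
    have h1 : v.valuationOfNeZero x ∈
        (powMonoidHom p : Multiplicative ℤ →* Multiplicative ℤ).range := hx
    obtain ⟨m, hm⟩ := h1
    exact ⟨m, hm⟩
  -- a uniformizer
  obtain ⟨π, hπ⟩ := v.valuation_exists_uniformizer F
  have hπ0 : π ≠ 0 := by
    intro h
    rw [h, map_zero] at hπ
    exact WithZero.exp_ne_zero hπ.symm
  have hϖ : v.valuationOfNeZero (Units.mk0 π hπ0) = Multiplicative.ofAdd (-1 : ℤ) := by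
    rw [← WithZero.coe_inj, HeightOneSpectrum.valuationOfNeZero_eq, Units.val_mk0, hπ]
    rfl
  -- kill the valuation of `x`
  have hval : v.valuationOfNeZero (x * (Units.mk0 π hπ0 ^ Multiplicative.toAdd m) ^ p) = 1 := by
    rw [map_mul, map_pow, map_zpow, hϖ, ← hm, ← mul_pow, Unif.mul_ofAdd_zpow, one_pow]
  have hy : v.valuation F ((x * (Units.mk0 π hπ0 ^ Multiplicative.toAdd m) ^ p : Fˣ) : F) = 1 := by
    rw [← HeightOneSpectrum.valuationOfNeZero_eq, hval, WithZero.coe_one]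
  -- clear the denominator
  obtain ⟨a, d, had⟩ := v.exists_primeCompl_mul_eq_of_integer (K := F) _ hy.le
  have hd : (d : 𝓞 F) ∉ v.asIdeal := d.2
  have hdv : v.valuation F (algebraMap (𝓞 F) F d) = 1 :=
    (v.valuation_eq_one_iff_notMem (K := F)).mpr hd
  have hdF : algebraMap (𝓞 F) F d ≠ 0 := by
    intro h
    rw [h, map_zero] at hdv
    exact zero_ne_one hdv
  have ha : a ∉ v.asIdeal := by
    rw [← v.valuation_eq_one_iff_notMem (K := F), ← had, map_mul, hy, hdv, one_mul]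
  refine ⟨Units.mk0 π hπ0 ^ Multiplicative.toAdd m * Units.mk0 (algebraMap (𝓞 F) F d) hdF,
    a * (d : 𝓞 F) ^ (p - 1), ?_, ?_⟩
  · intro h
    rcases v.isPrime.mem_or_mem h with h' | h'
    · exact ha h'
    · exact hd (v.isPrime.mem_of_pow_mem _ h')
  · have e1 : x * (Units.mk0 π hπ0 ^ Multiplicative.toAdd m *
          Units.mk0 (algebraMap (𝓞 F) F d) hdF) ^ p =
        (x * (Units.mk0 π hπ0 ^ Multiplicative.toAdd m) ^ p) *
          Units.mk0 (algebraMap (𝓞 F) F d) hdF ^ p := by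
      rw [mul_pow, mul_assoc]
    have e2 : (algebraMap (𝓞 F) F d) ^ p =
        algebraMap (𝓞 F) F d * (algebraMap (𝓞 F) F d) ^ (p - 1) := by
      rw [← pow_succ', Nat.sub_add_cancel hp0]
    rw [e1, Units.val_mul, Units.val_pow_eq_pow_val (Units.mk0 (algebraMap (𝓞 F) F d) hdF),
      Units.val_mk0, e2, ← mul_assoc, had, RingOfIntegers.coe_eq_algebraMap, map_mul, map_pow]

end Fermat.Agent.S14.SecondIneq.Local
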